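import Fermat.Agent.Root.SummaryFermatCurve
import Mathlib.Analysis.Complex.Polynomial.Basic
import Mathlib.FieldTheory.Minpoly.Field
import Mathlib.FieldTheory.Separable
import Mathlib.RingTheory.IntegralClosure.IntegrallyClosed
import Mathlib.RingTheory.RootsOfUnity.PrimitiveRoots

/-!
# Complex numbers `α` with rational powers of `α` and `1 - α`

All conjugates of such a number have the distances of `α` to `0` and `1`, so it is rational or
imaginary quadratic with `(α + ᾱ)² = j |α|²` for one `j` among `0, 1, 2, 3`. If the two powers are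
`n`th powers with `n ≥ 3` prime to the exponent, Fermat's Last Theorem and a finite check leave
only the primitive sixth roots of unity.
-/

set_option autoImplicit false
set_option linter.style.haveILetI false

noncomputable section

open Polynomial
open scoped ComplexConjugate

namespace FA.RationalExponent

/-- A small number is no `n`th power. -/
theorem pow_ne_of_lt {n k d : ℕ} (hn : n ≠ 0) (h2 : 2 ≤ k) (hk : k < 2 ^ n) : d ^ n ≠ k := by
  intro h
  rcases Nat.lt_or_ge d 2 with hd | hd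
  · interval_cases d <;> simp [hn] at h <;> omega
  · have := Nat.pow_le_pow_left hd n
    omega

/-- The numerator and denominator of an `n`th power, `n ≥ 3`, are not `2`, `3` or `4`. -/
theorem not_small_of_pow {n : ℕ} (hn : 3 ≤ n) {U q : ℚ} (h : U ^ n = q) :
    (q.num.natAbs < 2 ∨ 4 < q.num.natAbs) ∧ (q.den < 2 ∨ 4 < q.den) := by
  have hbig : ∀ k d : ℕ, d ^ n = k → k < 2 ∨ 4 < k := fun k d hd => by
    by_contra hc
    have : (2 : ℕ) ^ 3 ≤ 2 ^ n := Nat.pow_le_pow_right (by norm_num) hn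
    exact pow_ne_of_lt (by omega) (show 2 ≤ k by omega) (by omega) hd
  rw [← h]
  exact ⟨hbig _ U.num.natAbs (by rw [Rat.num_pow, Int.natAbs_pow]),
    hbig _ U.den (by rw [Rat.den_pow])⟩

/-- In coprime exponents a common value is a power in both. -/
theorem exists_pow_of_pow_eq {m n : ℕ} (hmn : Nat.Coprime m n) {A W : ℚ} (hA : 0 < A) (hW : 0 < W)
    (h : A ^ m = W ^ n) : ∃ U : ℚ, 0 < U ∧ A = U ^ n := by
  obtain ⟨s, t, hst⟩ : IsCoprime (m : ℤ) n := Nat.Coprime.isCoprime hmn
  refine ⟨W ^ s * A ^ t, by positivity, ?_⟩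
  rw [mul_pow, ← zpow_natCast (W ^ s), ← zpow_mul, mul_comm s, zpow_mul, zpow_natCast, ← h,
    ← zpow_natCast, ← zpow_natCast (A ^ t), ← zpow_mul, ← zpow_mul, ← zpow_add₀ hA.ne',
    show (m : ℤ) * s + t * n = 1 by linarith, zpow_one]

variable {α : ℂ} {m : ℕ} {X Y : ℚ}

/-- The norm of a number with a rational power. -/
theorem normSq_pow_of_pow {z : ℂ} {Z : ℚ} (hz : z ^ m = (Z : ℂ)) :
    Complex.normSq z ^ m = ((Z : ℝ)) ^ 2 := by
  rw [← map_pow, hz, ← Complex.ofReal_ratCast, Complex.normSq_ofReal, sq]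

/-- All conjugates lie on two circles, so the degree is at most two. -/
theorem rational_or_quadratic (hm : m ≠ 0) (hX : α ^ m = (X : ℂ))
    (hY : (1 - α) ^ m = (Y : ℂ)) :
    (∃ r : ℚ, α = r) ∨ (α.im ≠ 0 ∧ ∃ T A : ℚ, 2 * α.re = T ∧ Complex.normSq α = A) := by
  classical
  have hint : IsIntegral ℚ α := IsIntegral.of_pow (Nat.pos_of_ne_zero hm)
    (by rw [hX]; exact isIntegral_algebraMap (x := X))
  set P := minpoly ℚ α with hP
  have hP0 : P ≠ 0 := minpoly.ne_zero hint
  have hd1 : P ∣ (Polynomial.X : ℚ[X]) ^ m - C X := by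
    refine minpoly.dvd ℚ α ?_
    rw [map_sub, map_pow, aeval_X, aeval_C, eq_ratCast, hX, sub_self]
  have hd2 : P ∣ (1 - Polynomial.X : ℚ[X]) ^ m - C Y := by
    refine minpoly.dvd ℚ α ?_
    rw [map_sub, map_pow, map_sub, map_one, aeval_X, aeval_C, eq_ratCast, hY, sub_self]
  have hroot : ∀ w ∈ P.rootSet ℂ, w ∈ ({α, conj α} : Finset ℂ) := by
    intro w hw
    obtain ⟨-, hw⟩ := mem_rootSet.mp hw
    have e1 := aeval_eq_zero_of_dvd_aeval_eq_zero hd1 hw
    have e2 := aeval_eq_zero_of_dvd_aeval_eq_zero hd2 hw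
    simp only [map_sub, map_pow, map_one, aeval_X, aeval_C, eq_ratCast, sub_eq_zero] at e1 e2
    have n1 : Complex.normSq w = Complex.normSq α := (pow_left_inj₀ (Complex.normSq_nonneg _)
      (Complex.normSq_nonneg _) hm).mp (by rw [normSq_pow_of_pow e1, normSq_pow_of_pow hX])
    have n2 : Complex.normSq (1 - w) = Complex.normSq (1 - α) :=
      (pow_left_inj₀ (Complex.normSq_nonneg _) (Complex.normSq_nonneg _) hm).mp
        (by rw [normSq_pow_of_pow e2, normSq_pow_of_pow hY])
    simp only [Complex.normSq_apply, Complex.sub_re, Complex.sub_im, Complex.one_re,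
      Complex.one_im] at n1 n2
    have hre : w.re = α.re := by nlinarith
    have him : w.im = α.im ∨ w.im = -α.im := by
      rw [hre] at n1
      exact mul_self_eq_mul_self_iff.mp (by linarith)
    rw [Finset.mem_insert, Finset.mem_singleton]
    rcases him with h | h
    · exact Or.inl (Complex.ext hre h)
    · exact Or.inr (Complex.ext (by simp [hre]) (by simp [h]))
  have hcard : P.natDegree ≤ ({α, conj α} : Finset ℂ).card := by
    rw [← card_rootSet_eq_natDegree (K := ℂ) (minpoly.irreducible hint).separable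
      (IsAlgClosed.splits _), ← Fintype.card_coe]
    exact Fintype.card_le_of_injective (fun w => ⟨w.1, hroot w.1 w.2⟩)
      fun a b h => Subtype.ext (congrArg Subtype.val h :)
  have hpos : 0 < P.natDegree := minpoly.natDegree_pos hint
  have hev : aeval α P = 0 := minpoly.aeval ℚ α
  have hmonic : P.coeff P.natDegree = 1 := (minpoly.monic hint).coeff_natDegree
  rcases Nat.lt_or_ge P.natDegree 2 with h1 | h2
  · left
    have hd : P.natDegree = 1 := by omega
    rw [aeval_eq_sum_range, hd, Finset.sum_range_succ, Finset.sum_range_one, ← hd, hmonic,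
      hd] at hev
    simp only [pow_zero, pow_one, Rat.smul_def, Rat.cast_one, one_mul, mul_one] at hev
    exact ⟨-P.coeff 0, by push_cast; linear_combination hev⟩
  · right
    have hle := Finset.card_le_two (a := α) (b := conj α)
    have hd : P.natDegree = 2 := by omega
    have him : α.im ≠ 0 := fun h => by
      have : conj α = α := Complex.conj_eq_iff_im.mpr h
      rw [this, Finset.pair_eq_singleton, Finset.card_singleton] at hcard
      omega
    rw [aeval_eq_sum_range, hd, Finset.sum_range_succ, Finset.sum_range_succ,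
      Finset.sum_range_one, ← hd, hmonic, hd] at hev
    simp only [pow_zero, pow_one, Rat.smul_def, Rat.cast_one, one_mul, mul_one] at hev
    have hre := congrArg Complex.re hev
    have hi := congrArg Complex.im hev
    simp only [Complex.add_re, Complex.add_im, Complex.mul_re, Complex.mul_im, Complex.ratCast_re,
      Complex.ratCast_im, sq, Complex.zero_re, Complex.zero_im, zero_mul, sub_zero, add_zero,
      zero_add] at hre hi
    have hT : 2 * α.re = -(P.coeff 1 : ℝ) := by
      refine mul_right_cancel₀ him ?_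
      linarith
    refine ⟨him, -P.coeff 1, P.coeff 0, by push_cast; exact hT, ?_⟩
    rw [Complex.normSq_apply]
    linear_combination (α.re) * hT - hre

/-- For an imaginary quadratic `α` with a rational power, `(α + ᾱ)² = j |α|²` with `j ≤ 3`. -/
theorem sq_trace_eq {T A Z : ℚ} {z : ℂ} (hm : m ≠ 0) (hZ : z ^ m = (Z : ℂ))
    (him : z.im ≠ 0) (hT : 2 * z.re = T) (hA : Complex.normSq z = A) :
    ∃ j : ℕ, j ≤ 3 ∧ T ^ 2 = j * A := by
  have hz : z ≠ 0 := fun h => him (by rw [h, Complex.zero_im])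
  have hcz : conj z ≠ 0 := (_root_.map_ne_zero _).mpr hz
  have hAR : (0 : ℝ) < A := hA ▸ Complex.normSq_pos.mpr hz
  have hA0 : (A : ℚ) ≠ 0 := by exact_mod_cast hAR.ne'
  have hconj : conj z ^ m = (Z : ℂ) := by rw [← map_pow, hZ, map_ratCast]
  set ζ := z / conj z with hζ
  have hζm : ζ ^ m = 1 := by
    rw [hζ, div_pow, hconj, hZ, div_self]
    rw [← hconj]
    exact pow_ne_zero _ hcz
  have hsum : ((T ^ 2 / A - 2 : ℚ) : ℂ) = ζ + ζ⁻¹ := by
    have h1 : (T : ℂ) = z + conj z := by
      rw [Complex.add_conj, hT, Complex.ofReal_ratCast]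
    have h2 : (A : ℂ) = z * conj z := by
      rw [Complex.mul_conj, hA, Complex.ofReal_ratCast]
    rw [hζ, inv_div]
    push_cast
    rw [h1, h2]
    field_simp
    ring
  have hint : IsIntegral ℤ (T ^ 2 / A - 2 : ℚ) := by
    rw [← isIntegral_algebraMap_iff (B := ℂ) (algebraMap ℚ ℂ).injective, eq_ratCast, hsum]
    exact (IsIntegral.of_pow (Nat.pos_of_ne_zero hm) (by rw [hζm]; exact isIntegral_one)).add
      (IsIntegral.of_pow (Nat.pos_of_ne_zero hm)
        (by rw [inv_pow, hζm, inv_one]; exact isIntegral_one))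
  obtain ⟨k, hk⟩ := IsIntegrallyClosed.isIntegral_iff.mp hint
  rw [eq_intCast] at hk
  have hlt : T ^ 2 < 4 * A := by
    have h : (T : ℝ) ^ 2 < 4 * A := by
      rw [← hT, ← hA, Complex.normSq_apply]
      nlinarith [mul_self_pos.mpr him]
    exact_mod_cast h
  have hAQ : (0 : ℚ) < A := by exact_mod_cast hAR
  have e : T ^ 2 = (k + 2 : ℤ) * A := by
    push_cast
    rw [hk]
    field_simp
    ring
  have h0 : (0 : ℤ) ≤ k + 2 := by
    by_contra h
    have h' : ((k + 2 : ℤ) : ℚ) < 0 := by exact_mod_cast not_le.mp h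
    nlinarith [sq_nonneg T]
  have h4 : k + 2 < 4 := by
    by_contra h
    have h' : (4 : ℚ) ≤ ((k + 2 : ℤ) : ℚ) := by exact_mod_cast not_lt.mp h
    nlinarith
  refine ⟨(k + 2).toNat, by omega, ?_⟩
  rw [e]
  congr 1
  exact_mod_cast (Int.toNat_of_nonneg h0).symm

/-- Fermat over `ℚ` in the form used below. -/
theorem pow_add_pow_ne_one {n : ℕ} (hn : 3 ≤ n) {U V : ℚ} (hU : U ≠ 0) (hV : V ≠ 0) :
    U ^ n + V ^ n ≠ 1 ∧ U ^ n + 1 ≠ V ^ n := by
  constructor <;> intro h
  · have := FA.Summary.fermat_rat_mul_eq_zero hn (x := U) (y := V) (z := 1) (by rw [one_pow, h])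
    simp [hU, hV] at this
  · have := FA.Summary.fermat_rat_mul_eq_zero hn (x := U) (y := 1) (z := V) (by rw [one_pow, h])
    simp [hU, hV] at this

/-- The finite check. -/
theorem finite_check {T A : ℚ} {j i : ℕ} (hj : j ≤ 3) (hi : i ≤ 3) (hj0 : j ≠ 0) (hi0 : i ≠ 0)
    (hjA : T ^ 2 = j * A) (hiB : (2 - T) ^ 2 = i * (A - T + 1)) :
    (T = 1 ∧ A = 1) ∨ A ∈ ({3, 1 / 2, 1 / 3, 1 / 4, 3 / 4} : Set ℚ) ∨ A - T + 1 = 3 ∨
      ∃ t : ℚ, t ^ 2 = 3 := by
  obtain rfl | rfl | rfl : j = 1 ∨ j = 2 ∨ j = 3 := by omega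
  all_goals obtain rfl | rfl | rfl : i = 1 ∨ i = 2 ∨ i = 3 := by omega
  all_goals norm_num at hjA hiB
  · have hT : T = 1 := by linarith
    subst hT
    exact Or.inl ⟨rfl, by linarith⟩
  · exact Or.inr <| Or.inr <| Or.inr ⟨T + 1, by linarith⟩
  · rcases mul_eq_zero.mp (show (2 * T - 1) * (T + 1) = 0 by linarith) with h | h
    · obtain rfl : T = 1 / 2 := by linarith
      exact Or.inr <| Or.inl <| by norm_num at hjA ⊢; simp [← hjA]
    · obtain rfl : T = -1 := by linarith
      exact Or.inr <| Or.inr <| Or.inl (by linarith)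
  · exact Or.inr <| Or.inr <| Or.inr ⟨T - 3, by linarith⟩
  · obtain rfl : T = 1 := by linarith
    exact Or.inr <| Or.inl <| by simp [show A = 1 / 2 by linarith]
  · exact Or.inr <| Or.inr <| Or.inr ⟨T + 1, by linarith⟩
  · rcases mul_eq_zero.mp (show (2 * T - 3) * (T - 3) = 0 by linarith) with h | h
    · obtain rfl : T = 3 / 2 := by linarith
      exact Or.inr <| Or.inl <| by simp [show A = 3 / 4 by linarith]
    · obtain rfl : T = 3 := by linarith
      exact Or.inr <| Or.inl <| by simp [show A = 3 by linarith]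
  · exact Or.inr <| Or.inr <| Or.inr ⟨T - 3, by linarith⟩
  · obtain rfl : T = 1 := by linarith
    exact Or.inr <| Or.inl <| by simp [show A = 1 / 3 by linarith]

/-- The roots of `X² - X + 1` are the primitive sixth roots of unity. -/
theorem isPrimitiveRoot_of_quadratic {z : ℂ} (h : z ^ 2 - z + 1 = 0) : IsPrimitiveRoot z 6 := by
  have h3 : z ^ 3 = -1 := by linear_combination (z + 1) * h
  refine IsPrimitiveRoot.mk_of_lt z (by norm_num)
    (by rw [show (6 : ℕ) = 3 * 2 from rfl, pow_mul, h3]; norm_num) fun l hl hl' hz => ?_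
  have h0 : z ≠ 0 := fun e => by rw [e] at h; norm_num at h
  interval_cases l
  · rw [pow_one] at hz; rw [hz] at h; norm_num at h
  · rw [show z = 2 by linear_combination hz - h] at h; norm_num at h
  · rw [h3] at hz; norm_num at hz
  · rw [pow_succ, h3] at hz; rw [show z = -1 by linear_combination -hz] at h; norm_num at h
  · rw [show (5 : ℕ) = 3 + 2 from rfl, pow_add, h3] at hz
    exact h0 (by linear_combination -h - hz)

/-- A rational `r` cannot have `|r|` and `|1 - r|` both nonzero `n`th powers. -/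
theorem false_of_rational {n : ℕ} (hn : 3 ≤ n) {r U V : ℚ} (hU : U ≠ 0) (hV : V ≠ 0)
    (hUr : |r| = U ^ n) (hVr : |1 - r| = V ^ n) : False := by
  rcases abs_cases r with ⟨e, hc⟩ | ⟨e, hc⟩ <;>
    rcases abs_cases (1 - r) with ⟨e', hc'⟩ | ⟨e', hc'⟩
  · exact (pow_add_pow_ne_one hn hU hV).1 (by rw [← hUr, ← hVr, e, e']; ring)
  · exact (pow_add_pow_ne_one hn hV hU).2 (by rw [← hUr, ← hVr, e, e']; ring)
  · exact (pow_add_pow_ne_one hn hU hV).2 (by rw [← hUr, ← hVr, e, e']; ring)
  · linarith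

/-- An imaginary `α` with rational powers of `α` and `1 - α`, both squared absolute values being
`n`th powers of rationals, is a primitive sixth root of unity. -/
theorem quadratic_eq_zero {n : ℕ} (hn : 3 ≤ n) (hm : m ≠ 0) (hX : α ^ m = (X : ℂ))
    (hY : (1 - α) ^ m = (Y : ℂ)) (him : α.im ≠ 0) {U V : ℚ} (hU : 0 < U) (hV : 0 < V)
    (hUn : Complex.normSq α = ((U ^ n : ℚ) : ℝ))
    (hVn : Complex.normSq (1 - α) = ((V ^ n : ℚ) : ℝ)) : α ^ 2 - α + 1 = 0 := by
  obtain ⟨r, hr⟩ | ⟨-, T, A, hT, hA⟩ := rational_or_quadratic hm hX hY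
  · exact absurd (by rw [hr, Complex.ratCast_im]) him
  set B := A - T + 1
  have hB : Complex.normSq (1 - α) = B := by
    push_cast [B]
    rw [← hA, ← hT, Complex.normSq_apply, Complex.normSq_apply]
    simp only [Complex.sub_re, Complex.sub_im, Complex.one_re, Complex.one_im]
    ring
  have him' : (1 - α).im ≠ 0 := by simpa using him
  obtain ⟨j, hj, hjA⟩ := sq_trace_eq hm hX him hT hA
  obtain ⟨i, hi, hiB⟩ := sq_trace_eq (T := 2 - T) hm hY him'
    (by rw [Complex.sub_re, Complex.one_re]; push_cast; linarith) hB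
  have hUA : A = U ^ n := by exact_mod_cast hA.symm.trans hUn
  have hVB : B = V ^ n := by exact_mod_cast hB.symm.trans hVn
  have hj0 : j ≠ 0 := fun h => by
    rw [h, Nat.cast_zero, zero_mul, sq_eq_zero_iff] at hjA
    exact (pow_add_pow_ne_one hn hU.ne' hV.ne').2 (by rw [← hUA, ← hVB]; simp [B, hjA])
  have hi0 : i ≠ 0 := fun h => by
    rw [h, Nat.cast_zero, zero_mul, sq_eq_zero_iff, sub_eq_zero] at hiB
    exact (pow_add_pow_ne_one hn hV.ne' hU.ne').2 (by rw [← hUA, ← hVB]; simp [B, ← hiB]; ring)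
  have hs : ∀ t : ℚ, t ^ 2 ≠ 3 := fun t ht => by
    have h := congrArg (fun x : ℚ => x.num.natAbs) ht
    simp only [Rat.num_pow, Int.natAbs_pow] at h
    exact pow_ne_of_lt (show (2 : ℕ) ≠ 0 by norm_num) (show 2 ≤ 3 by norm_num) (by norm_num)
      (h.trans (by norm_num))
  have hA' : A ≠ 3 ∧ A ≠ 1 / 2 ∧ A ≠ 1 / 3 ∧ A ≠ 1 / 4 ∧ A ≠ 3 / 4 := by
    refine ⟨?_, ?_, ?_, ?_, ?_⟩ <;> intro h <;> have := not_small_of_pow hn (hUA.symm.trans h) <;>
      norm_num at this
  have hB' : B ≠ 3 := fun h => by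
    have := not_small_of_pow hn (hVB.symm.trans h)
    norm_num at this
  obtain ⟨rfl, rfl⟩ : T = 1 ∧ A = 1 := by
    rcases finite_check hj hi hj0 hi0 hjA hiB with h | h | h | ⟨t, ht⟩
    · exact h
    · simp only [Set.mem_insert_iff, Set.mem_singleton_iff] at h
      rcases h with h | h | h | h | h
      exacts [absurd h hA'.1, absurd h hA'.2.1, absurd h hA'.2.2.1, absurd h hA'.2.2.2.1,
        absurd h hA'.2.2.2.2]
    · exact absurd h hB'
    · exact absurd ht (hs t)
  have h1 : (α + conj α) = 1 := by rw [Complex.add_conj, hT]; simp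
  have h2 : α * conj α = 1 := by rw [Complex.mul_conj, hA]; simp
  linear_combination α * h1 - h2

/-- **The only case**: `p = q = 1` and a primitive sixth root of unity. -/
theorem eq_one_of_pow {n : ℕ} (hn : 3 ≤ n) (hm : m ≠ 0) (hmn : Nat.Coprime m n) {p q : ℚ}
    (hp : 0 < p) (hq : 0 < q) (hX : α ^ m = ((p ^ n : ℚ) : ℂ))
    (hY : (1 - α) ^ m = ((q ^ n : ℚ) : ℂ)) : p = 1 ∧ q = 1 ∧ 6 ∣ m := by
  obtain ⟨r, rfl⟩ | ⟨him, T, A, hT, hA⟩ := rational_or_quadratic hm hX hY
  · exfalso
    have hr : r ^ m = p ^ n := by exact_mod_cast hX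
    have hr' : (1 - r) ^ m = q ^ n := by exact_mod_cast hY
    have h0 : r ≠ 0 := fun h => by
      rw [h, zero_pow hm] at hr
      exact (pow_pos hp n).ne hr
    have h1 : 1 - r ≠ 0 := fun h => by
      rw [h, zero_pow hm] at hr'
      exact (pow_pos hq n).ne hr'
    obtain ⟨U, hU, hUr⟩ := exists_pow_of_pow_eq hmn (abs_pos.mpr h0) hp
      (by rw [← abs_pow, hr, abs_of_pos (pow_pos hp n)])
    obtain ⟨V, hV, hVr⟩ := exists_pow_of_pow_eq hmn (abs_pos.mpr h1) hq
      (by rw [← abs_pow, hr', abs_of_pos (pow_pos hq n)])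
    exact false_of_rational hn hU.ne' hV.ne' hUr hVr
  have hB : Complex.normSq (1 - α) = ((A - T + 1 : ℚ) : ℝ) := by
    push_cast
    rw [← hA, ← hT, Complex.normSq_apply, Complex.normSq_apply]
    simp only [Complex.sub_re, Complex.sub_im, Complex.one_re, Complex.one_im]
    ring
  have him' : (1 - α).im ≠ 0 := by simpa using him
  have key : ∀ (z : ℂ) (C w : ℚ), 0 < w → z.im ≠ 0 → z ^ m = ((w ^ n : ℚ) : ℂ) →
      Complex.normSq z = (C : ℝ) → C ^ m = (w ^ 2) ^ n ∧ ∃ U : ℚ, 0 < U ∧ C = U ^ n := by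
    intro z C w hw hzi hz hC
    have hC0 : (0 : ℚ) < C := by
      have : (0 : ℝ) < C := hC ▸ Complex.normSq_pos.mpr fun h => hzi (by rw [h, Complex.zero_im])
      exact_mod_cast this
    have hCm : C ^ m = (w ^ 2) ^ n := by
      have h := normSq_pow_of_pow hz
      rw [hC] at h
      rw [pow_right_comm]
      exact_mod_cast h
    exact ⟨hCm, exists_pow_of_pow_eq hmn hC0 (by positivity) hCm⟩
  obtain ⟨hAm, U, hU, hUA⟩ := key α A p hp him hX hA
  obtain ⟨hBm, V, hV, hVB⟩ := key (1 - α) (A - T + 1) q hq him' hY hB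
  have hquad := quadratic_eq_zero hn hm hX hY him hU hV (by rw [hA, hUA]) (by rw [hB, hVB])
  have hroot := isPrimitiveRoot_of_quadratic hquad
  have hnorm : ∀ z : ℂ, z ^ 6 = 1 → Complex.normSq z = 1 := fun z hz => by
    rw [Complex.normSq_eq_norm_sq, Complex.norm_eq_one_of_pow_eq_one hz (by norm_num), one_pow]
  have hA1 : A = 1 := by exact_mod_cast hA.symm.trans (hnorm α hroot.pow_eq_one)
  have hB1 : A - T + 1 = 1 := by
    refine Rat.cast_injective (α := ℝ) ((hB.symm.trans (hnorm _ ?_)).trans Rat.cast_one.symm)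
    exact (isPrimitiveRoot_of_quadratic (z := 1 - α) (by linear_combination hquad)).pow_eq_one
  have hp1 : p = 1 := by
    rw [hA1, one_pow, ← pow_mul, eq_comm, pow_eq_one_iff_of_nonneg hp.le (by omega)] at hAm
    exact hAm
  have hq1 : q = 1 := by
    rw [hB1, one_pow, ← pow_mul, eq_comm, pow_eq_one_iff_of_nonneg hq.le (by omega)] at hBm
    exact hBm
  refine ⟨hp1, hq1, hroot.dvd_of_pow_eq_one m ?_⟩
  rw [hX, hp1, one_pow, Rat.cast_one]

end FA.RationalExponent

end
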