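import Fermat.Agent.RationalExponent.Radical
import Mathlib.RingTheory.Trace.Basic
import Mathlib.NumberTheory.Real.Irrational
import Mathlib.Algebra.BigOperators.Field
import Mathlib.LinearAlgebra.LinearIndependent.Defs

/-!
# Besicovitch's theorem on real radicals

An irrational positive real with a rational power has trace `0` in every number field containing it.
So in a rational combination of radicals with rational value the irrational terms cancel, and
radicals with pairwise irrational ratios are linearly independent over `ℚ`.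
-/

set_option autoImplicit false
set_option linter.style.haveILetI false

noncomputable section

open Polynomial IntermediateField

namespace FA.RationalExponent

/-- An irrational radical has trace `0`. -/
theorem trace_radical {K : IntermediateField ℚ ℝ} [FiniteDimensional ℚ K] (y : K)
    (hy : 0 < (y : ℝ)) (hirr : Irrational (y : ℝ)) {m : ℕ} (hm : m ≠ 0) {q : ℚ}
    (hq : (y : ℝ) ^ m = (q : ℝ)) : Algebra.trace ℚ K y = 0 := by
  obtain ⟨r, hr⟩ := minpoly_radical hy hm hq
  have hint : IsIntegral ℚ (y : ℝ) := IsIntegral.of_pow (Nat.pos_of_ne_zero hm)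
    (by rw [hq]; exact isIntegral_algebraMap (x := q))
  have hmy : minpoly ℚ (y : ℝ) = minpoly ℚ y := minpoly.algebraMap_eq Subtype.val_injective y
  have hpos : 0 < (minpoly ℚ (y : ℝ)).natDegree := minpoly.natDegree_pos hint
  have he1 : (minpoly ℚ (y : ℝ)).natDegree ≠ 1 := fun h1 => by
    have hev := minpoly.aeval ℚ (y : ℝ)
    rw [hr, h1, pow_one, map_sub, aeval_X, aeval_C, eq_ratCast, sub_eq_zero] at hev
    exact hirr ⟨r, hev.symm⟩
  set e := (minpoly ℚ (y : ℝ)).natDegree with he
  have hnext : (minpoly ℚ (y : ℝ)).nextCoeff = 0 := by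
    rw [nextCoeff_of_natDegree_pos hpos, hr, natDegree_X_pow_sub_C, coeff_sub, coeff_X_pow,
      coeff_C, if_neg (by omega), if_neg (by omega), sub_zero]
  rw [trace_eq_finrank_mul_minpoly_nextCoeff, ← hmy, hnext, neg_zero, mul_zero]

/-- In a rational combination of positive radicals with rational value the irrational terms sum
to `0`. -/
theorem irrational_part_eq_zero {ι : Type*} (t : Finset ι) (s : ι → ℝ) (hs : ∀ i ∈ t, 0 < s i)
    (hr : ∀ i ∈ t, ∃ m : ℕ, m ≠ 0 ∧ ∃ q : ℚ, s i ^ m = q) (g : ι → ℚ) {c : ℚ}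
    (hc : ∑ i ∈ t, (g i : ℝ) * s i = c) [DecidablePred fun i => Irrational (s i)] :
    ∑ i ∈ t with Irrational (s i), (g i : ℝ) * s i = 0 := by
  classical
  set K := IntermediateField.adjoin ℚ (s '' ↑t) with hK
  haveI : Finite ↥(s '' (↑t : Set ι)) := ((Finset.finite_toSet t).image s).to_subtype
  haveI : FiniteDimensional ℚ K := IntermediateField.finiteDimensional_adjoin fun x hx => by
    obtain ⟨i, hi, rfl⟩ := hx
    obtain ⟨m, hm, q, hq⟩ := hr i hi
    exact IsIntegral.of_pow (Nat.pos_of_ne_zero hm)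
      (by rw [hq]; exact isIntegral_algebraMap (x := q))
  have hmem : ∀ i ∈ t, s i ∈ K := fun i hi =>
    IntermediateField.subset_adjoin ℚ _ ⟨i, hi, rfl⟩
  let y : ι → K := fun i => if hi : i ∈ t then ⟨s i, hmem i hi⟩ else 0
  have hy : ∀ i ∈ t, (y i : ℝ) = s i := fun i hi => by simp [y, hi]
  have hsum : ∑ i ∈ t, g i • y i = algebraMap ℚ K c := by
    apply K.val.injective
    rw [map_sum, eq_ratCast (algebraMap ℚ K), map_ratCast, ← hc]
    refine Finset.sum_congr rfl fun i hi => ?_
    rw [Rat.smul_def, map_mul, map_ratCast]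
    exact congrArg _ (hy i hi)
  -- the rational part has the same trace as the whole sum
  have htr : ∀ i ∈ t, Algebra.trace ℚ K (g i • y i) =
      if Irrational (s i) then 0 else Algebra.trace ℚ K (g i • y i) := fun i hi => by
    split_ifs with h
    · obtain ⟨m, hm, q, hq⟩ := hr i hi
      rw [map_smul, trace_radical (y i) (by rw [hy i hi]; exact hs i hi) (by rwa [hy i hi]) hm
        (by rw [hy i hi]; exact hq), smul_zero]
    · rfl
  have hrat : ∃ b : ℚ, ∑ i ∈ t with ¬ Irrational (s i), g i • y i = algebraMap ℚ K b := by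
    have : ∀ i ∈ t.filter (fun i => ¬ Irrational (s i)), ∃ b : ℚ, y i = algebraMap ℚ K b := by
      intro i hi
      obtain ⟨hi, hb⟩ := Finset.mem_filter.1 hi
      obtain ⟨b, hb⟩ : s i ∈ Set.range ((↑) : ℚ → ℝ) := not_not.1 hb
      exact ⟨b, Subtype.ext (by simp [hy i hi, ← hb])⟩
    choose! b hb using this
    refine ⟨∑ i ∈ t with ¬ Irrational (s i), g i * b i, ?_⟩
    rw [map_sum]
    refine Finset.sum_congr rfl fun i hi => ?_
    rw [hb i hi, map_mul, Algebra.smul_def]
  obtain ⟨b, hb⟩ := hrat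
  have hbc : b = c := by
    have h1 := congrArg (Algebra.trace ℚ K) hsum
    rw [map_sum, Finset.sum_congr rfl htr, Finset.sum_ite, Finset.sum_const_zero, zero_add,
      ← map_sum, hb, Algebra.trace_algebraMap, Algebra.trace_algebraMap] at h1
    exact smul_right_injective ℚ Module.finrank_pos.ne' h1
  have h2 : ∑ i ∈ t with ¬ Irrational (s i), (g i : ℝ) * s i = c := by
    have h3 := congrArg K.val hb
    rw [map_sum, eq_ratCast (algebraMap ℚ K), map_ratCast, hbc] at h3
    rw [← h3]
    refine Finset.sum_congr rfl fun i hi => ?_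
    rw [Rat.smul_def, map_mul, map_ratCast, IntermediateField.coe_val,
      hy i (Finset.mem_filter.1 hi).1]
  rw [← Finset.sum_filter_add_sum_filter_not t (fun i => Irrational (s i))] at hc
  linarith

/-- **Positive radicals with rational positive combination are rational.** -/
theorem rat_of_radical_sum {ι : Type*} (t : Finset ι) (s : ι → ℝ) (hs : ∀ i ∈ t, 0 < s i)
    (hr : ∀ i ∈ t, ∃ m : ℕ, m ≠ 0 ∧ ∃ q : ℚ, s i ^ m = q) (g : ι → ℚ) (hg : ∀ i ∈ t, 0 < g i)
    {c : ℚ} (hc : ∑ i ∈ t, (g i : ℝ) * s i = c) : ∀ i ∈ t, ∃ x : ℚ, s i = x := by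
  classical
  intro i hi
  by_contra hx
  have hirr : Irrational (s i) := fun ⟨x, hx'⟩ => hx ⟨x, hx'.symm⟩
  have hpos : ∀ j ∈ t, 0 < (g j : ℝ) * s j := fun j hj =>
    mul_pos (by exact_mod_cast hg j hj) (hs j hj)
  exact (hpos i hi).ne' <| (Finset.sum_eq_zero_iff_of_nonneg
    fun j hj => (hpos j (Finset.mem_filter.1 hj).1).le).1
    (irrational_part_eq_zero t s hs hr g hc) i (Finset.mem_filter.2 ⟨hi, hirr⟩)

/-- **Besicovitch**: positive reals with rational powers and pairwise irrational ratios are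
linearly independent over `ℚ`. -/
theorem linearIndependent_radicals {ι : Type*} (s : ι → ℝ) (hs : ∀ i, 0 < s i)
    (hr : ∀ i, ∃ m : ℕ, m ≠ 0 ∧ ∃ q : ℚ, s i ^ m = q)
    (hne : ∀ i j, i ≠ j → Irrational (s i / s j)) : LinearIndependent ℚ s := by
  classical
  rw [linearIndependent_iff']
  intro t g hg i hi
  have hrad : ∀ j ∈ t, ∃ m : ℕ, m ≠ 0 ∧ ∃ q : ℚ, (s j / s i) ^ m = q := fun j _ => by
    obtain ⟨m, hm, a, ha⟩ := hr j
    obtain ⟨n, hn, b, hb⟩ := hr i
    refine ⟨m * n, mul_ne_zero hm hn, a ^ n / b ^ m, ?_⟩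
    push_cast
    rw [div_pow, pow_mul, ha, mul_comm, pow_mul, hb]
  have hc : ∑ j ∈ t, (g j : ℝ) * (s j / s i) = ((0 : ℚ) : ℝ) := by
    simp only [Rat.smul_def] at hg
    simp only [mul_div_assoc', Rat.cast_zero, ← Finset.sum_div, hg, zero_div]
  have h := irrational_part_eq_zero t (fun j => s j / s i) (fun j _ => div_pos (hs j) (hs i))
    hrad g hc
  have hfilter : t.filter (fun j => Irrational (s j / s i)) = t.erase i := by
    ext j
    rw [Finset.mem_filter, Finset.mem_erase]
    refine ⟨fun ⟨hj, hirr⟩ => ⟨fun hji => ?_, hj⟩, fun ⟨hji, hj⟩ => ⟨hj, hne j i hji⟩⟩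
    rw [hji, div_self (hs i).ne'] at hirr
    exact hirr ⟨1, Rat.cast_one⟩
  rw [hfilter] at h
  rw [← Finset.add_sum_erase t _ hi, h, div_self (hs i).ne', mul_one, add_zero] at hc
  exact_mod_cast hc

end FA.RationalExponent

end
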