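import Mathlib.FieldTheory.IntermediateField.Adjoin.Basic
import Mathlib.FieldTheory.Minpoly.Field
import Mathlib.RingTheory.Norm.Defs
import Mathlib.Analysis.SpecialFunctions.Pow.Real

/-!
# Sums of two real radicals

A positive real number with a rational power has a minimal polynomial `X ^ e - r` over `ℚ`: the
norm fixes the constant term. So two positive radicals with rational sum are rational.

With `r = k / m` in lowest terms `x ^ r` is such a radical, rational only if `x` is an `m`th power.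
-/

set_option autoImplicit false

noncomputable section

open Polynomial IntermediateField

namespace FA.RationalExponent

/-- The minimal polynomial of a positive real radical is a binomial. -/
theorem minpoly_radical {s : ℝ} (hs : 0 < s) {m : ℕ} (hm : m ≠ 0) {q : ℚ} (hq : s ^ m = (q : ℝ)) :
    ∃ r : ℚ, minpoly ℚ s = X ^ (minpoly ℚ s).natDegree - C r := by
  have hint : IsIntegral ℚ s := IsIntegral.of_pow (Nat.pos_of_ne_zero hm)
    (by rw [hq]; exact isIntegral_algebraMap (x := q))
  set e := (minpoly ℚ s).natDegree with he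
  have he0 : e ≠ 0 := (minpoly.natDegree_pos hint).ne'
  obtain ⟨N, hN⟩ : ∃ N, Algebra.norm ℚ (AdjoinSimple.gen ℚ s) = N := ⟨_, rfl⟩
  have hgen : AdjoinSimple.gen ℚ s ^ m = algebraMap ℚ ℚ⟮s⟯ q := by
    apply Subtype.ext
    push_cast [AdjoinSimple.coe_gen]
    rw [hq]
    simp
  have hpow : N ^ m = q ^ e := by
    rw [← hN, ← map_pow, hgen, Algebra.norm_algebraMap, adjoin.finrank hint]
  have habs : ((|N| : ℚ) : ℝ) = s ^ e := by
    refine (pow_left_inj₀ (by positivity) (by positivity) hm).1 ?_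
    rw [← pow_mul, mul_comm, pow_mul, hq, Rat.cast_abs, ← abs_pow, ← Rat.cast_pow, ← Rat.cast_pow,
      hpow, abs_of_nonneg]
    rw [Rat.cast_pow, ← hq]
    positivity
  refine ⟨|N|, (Polynomial.eq_of_monic_of_dvd_of_natDegree_le (minpoly.monic hint)
    (monic_X_pow_sub_C _ he0) ?_ ?_).symm⟩
  · apply minpoly.dvd
    rw [map_sub, map_pow, aeval_X, aeval_C, eq_ratCast, habs, sub_self]
  · rw [natDegree_X_pow_sub_C]

/-- **Two positive radicals with rational sum are rational.** -/
theorem rat_of_radical_add {s t : ℝ} (hs : 0 < s) (ht : 0 < t) {m n : ℕ} (hm : m ≠ 0) (hn : n ≠ 0)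
    {a b c : ℚ} (ha : s ^ m = (a : ℝ)) (hb : t ^ n = (b : ℝ)) (hc : s + t = (c : ℝ)) :
    (∃ x : ℚ, s = x) ∧ ∃ y : ℚ, t = y := by
  suffices hsx : ∃ x : ℚ, s = x by
    obtain ⟨x, hx⟩ := hsx
    exact ⟨⟨x, hx⟩, c - x, by push_cast; linarith⟩
  obtain ⟨r, hr⟩ := minpoly_radical hs hm ha
  obtain ⟨r', hr'⟩ := minpoly_radical ht hn hb
  set e := (minpoly ℚ s).natDegree with he
  have hint : IsIntegral ℚ s := IsIntegral.of_pow (Nat.pos_of_ne_zero hm)
    (by rw [ha]; exact isIntegral_algebraMap (x := a))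
  have hts : t = -(s - algebraMap ℚ ℝ c) := by rw [eq_ratCast]; linarith
  have hmin : minpoly ℚ t = (-1) ^ e * (minpoly ℚ s).comp (-X + C c) := by
    have hdeg : ((minpoly ℚ s).comp (X + C c)).natDegree = e := by
      rw [natDegree_comp, natDegree_X_add_C, mul_one]
    rw [hts, minpoly.neg, minpoly.sub_algebraMap, hdeg, comp_assoc, add_comp, X_comp, C_comp]
  have hsign : ((-1 : ℚ[X]) ^ e) * (-X + C c) ^ e = (X + C (-c)) ^ e := by
    rw [← mul_pow, map_neg]
    ring
  rw [hr, sub_comp, pow_comp, X_comp, C_comp, mul_sub, hsign] at hmin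
  have hpos : 0 < e := minpoly.natDegree_pos hint
  have hdeg : (minpoly ℚ t).natDegree = e := by
    rw [hmin, sub_eq_add_neg, natDegree_add_eq_left_of_natDegree_lt]
    · rw [natDegree_pow, natDegree_X_add_C, mul_one]
    · rw [natDegree_neg, natDegree_pow, natDegree_X_add_C, mul_one]
      refine lt_of_le_of_lt (natDegree_mul_le.trans ?_) hpos
      simp
  rw [hdeg] at hr'
  rw [hr'] at hmin
  have he1 : e = 1 := by
    by_contra hne
    have hk : e - 1 ≠ 0 := by omega
    have h1 := congrArg (fun f : ℚ[X] => f.coeff (e - 1)) hmin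
    simp only [coeff_sub, coeff_X_pow, coeff_C, if_neg hk, if_neg (show e - 1 ≠ e by omega),
      coeff_X_add_C_pow, show e - (e - 1) = 1 by omega, pow_one, sub_zero] at h1
    rw [show ((-1 : ℚ[X]) ^ e * C r).coeff (e - 1) = 0 by
      rw [show (-1 : ℚ[X]) = C (-1) by simp, ← C_pow, ← C_mul, coeff_C, if_neg hk]] at h1
    rw [sub_zero, eq_comm, mul_eq_zero, neg_eq_zero, Nat.cast_eq_zero] at h1
    rcases h1 with h1 | h1
    · rw [h1] at hc
      push_cast at hc
      linarith
    · exact (Nat.choose_pos (Nat.sub_le e 1)).ne' h1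
  refine ⟨r, ?_⟩
  have hev := minpoly.aeval ℚ s
  rw [hr, he1, pow_one, map_sub, aeval_X, aeval_C, eq_ratCast, sub_eq_zero] at hev
  exact hev

/-- For positive rational `x` the real power `x ^ r` is a radical. -/
theorem rpow_pow_den {x : ℚ} (hx : 0 < x) (r : ℚ) :
    ((x : ℝ) ^ (r : ℝ)) ^ r.den = ((x ^ r.num : ℚ) : ℝ) := by
  have hxR : (0 : ℝ) < x := by exact_mod_cast hx
  rw [← Real.rpow_natCast, ← Real.rpow_mul hxR.le, Rat.cast_zpow, ← Real.rpow_intCast]
  congr 1
  exact_mod_cast Rat.mul_den_eq_num r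

/-- If `x ^ r` is rational then `x` is a power with exponent `r.den`. -/
theorem exists_root_of_rpow {r x z : ℚ} (hx : 0 < x) (hz : (x : ℝ) ^ (r : ℝ) = z) :
    ∃ u : ℚ, 0 < u ∧ x = u ^ r.den ∧ z = u ^ r.num := by
  have hz0 : 0 < z := by
    have hxR : (0 : ℝ) < x := by exact_mod_cast hx
    exact_mod_cast hz ▸ Real.rpow_pos_of_pos hxR _
  have hzm : z ^ r.den = x ^ r.num := by
    have := rpow_pow_den hx r
    rw [hz] at this
    exact_mod_cast this
  obtain ⟨α, β, hab⟩ : IsCoprime r.num (r.den : ℤ) := by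
    rw [Int.isCoprime_iff_gcd_eq_one, Int.gcd, Int.natAbs_natCast]
    exact r.reduced
  refine ⟨z ^ α * x ^ β, by positivity, ?_, ?_⟩
  · rw [mul_pow, ← zpow_natCast (z ^ α), ← zpow_mul, mul_comm α, zpow_mul, zpow_natCast, hzm,
      ← zpow_natCast (x ^ β), ← zpow_mul, ← zpow_mul, ← zpow_add₀ hx.ne']
    rw [show r.num * α + β * (r.den : ℤ) = 1 by linarith, zpow_one]
  · rw [mul_zpow, ← zpow_mul, ← zpow_mul, mul_comm β, zpow_mul x, ← hzm, ← zpow_natCast z,
      ← zpow_mul, ← zpow_add₀ hz0.ne']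
    rw [show α * r.num + (r.den : ℤ) * β = 1 by linarith, zpow_one]

end FA.RationalExponent

end
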